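import Mathlib

/-!
# Explicit 5-congruent family (Rubin–Silverberg via Klein's icosahedral forms): definitions

`kf, kH, kT` are Klein's forms (`kT^2 + kH^3 = 1728 kf^5`).  For a curve with invariants
`c4 = -kH a b`, `c6 = -kT a b` the pencil `(pa a b t, pb a b t)` gives the family with invariants
`famC4 c4 c6 t`, `famC6 c4 c6 t` and discriminant `Δ * famD c4 c6 t ^ 5`.
-/

set_option autoImplicit false

namespace Fermat.Agent.X5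

variable {R : Type*} [CommRing R]

/-- Klein's form of degree 12 (vertices of the icosahedron). -/
def kf (a b : R) : R := a * b * (a ^ 10 + 11 * a ^ 5 * b ^ 5 - b ^ 10)

/-- Klein's form of degree 20 (the Hessian; face centres). -/
def kH (a b : R) : R :=
  -(a ^ 20 + b ^ 20) + 228 * (a ^ 15 * b ^ 5 - a ^ 5 * b ^ 15) - 494 * a ^ 10 * b ^ 10

/-- Klein's form of degree 30 (edge midpoints). -/
def kT (a b : R) : R :=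
  a ^ 30 + b ^ 30 + 522 * (a ^ 25 * b ^ 5 - a ^ 5 * b ^ 25)
    - 10005 * (a ^ 20 * b ^ 10 + a ^ 10 * b ^ 20)

/-- `∂ kf / ∂ a`. -/
def kfa (a b : R) : R := 11 * a ^ 10 * b + 66 * a ^ 5 * b ^ 6 - b ^ 11

/-- `∂ kf / ∂ b`. -/
def kfb (a b : R) : R := a ^ 11 + 66 * a ^ 6 * b ^ 5 - 11 * a * b ^ 10

/-- first coordinate of the pencil. -/
def pa (a b t : R) : R := a - t * kfb a b

/-- second coordinate of the pencil. -/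
def pb (a b t : R) : R := b + t * kfa a b

/-- the discriminant factor of the family: `Δ(E_t) = Δ(E) * famD c4 c6 t ^ 5`. -/
def famD (c4 c6 t : R) : R :=
  (1)
    + (-66 * c4) * t ^ 2
    + (-440 * c6) * t ^ 3
    + (-1485 * c4 ^ 2) * t ^ 4
    + (-3168 * c4 * c6) * t ^ 5
    + (-10560 * c6 ^ 2 + 5940 * c4 ^ 3) * t ^ 6
    + (-4752 * c4 ^ 2 * c6) * t ^ 7
    + (63360 * c4 * c6 ^ 2 - 66825 * c4 ^ 4) * t ^ 8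
    + (140800 * c6 ^ 3 - 142560 * c4 ^ 3 * c6) * t ^ 9
    + (133056 * c4 ^ 2 * c6 ^ 2 - 133650 * c4 ^ 5) * t ^ 10
    + (61440 * c4 * c6 ^ 3 - 61560 * c4 ^ 4 * c6) * t ^ 11
    + (102400 * c6 ^ 4 - 193536 * c4 ^ 3 * c6 ^ 2 + 91125 * c4 ^ 6) * t ^ 12

/-- `c4` of the family. -/
def famC4 (c4 c6 t : R) : R :=
  (c4)
    + (20 * c6) * t
    + (190 * c4 ^ 2) * t ^ 2
    + (1140 * c4 * c6) * t ^ 3
    + (5700 * c6 ^ 2 - 855 * c4 ^ 3) * t ^ 4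
    + (15504 * c4 ^ 2 * c6) * t ^ 5
    + (-63840 * c4 * c6 ^ 2 + 102600 * c4 ^ 4) * t ^ 6
    + (-182400 * c6 ^ 3 + 259920 * c4 ^ 3 * c6) * t ^ 7
    + (1126320 * c4 ^ 2 * c6 ^ 2 - 1000350 * c4 ^ 5) * t ^ 8
    + (7904000 * c4 * c6 ^ 3 - 7736040 * c4 ^ 4 * c6) * t ^ 9
    + (15808000 * c6 ^ 4 - 5619744 * c4 ^ 3 * c6 ^ 2 - 10003500 * c4 ^ 6) * t ^ 10
    + (54853760 * c4 ^ 2 * c6 ^ 3 - 54685800 * c4 ^ 5 * c6) * t ^ 11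
    + (37939200 * c4 * c6 ^ 4 + 7202520 * c4 ^ 4 * c6 ^ 2 - 45015750 * c4 ^ 7) * t ^ 12
    + (58368000 * c6 ^ 5 - 23201280 * c4 ^ 3 * c6 ^ 3 - 35089200 * c4 ^ 6 * c6) * t ^ 13
    + (287462400 * c4 ^ 2 * c6 ^ 4 - 495188640 * c4 ^ 5 * c6 ^ 2 + 207765000 * c4 ^ 8) * t ^ 14
    + (466944000 * c4 * c6 ^ 5 - 882458496 * c4 ^ 4 * c6 ^ 3 + 415530000 * c4 ^ 7 * c6) * t ^ 15
    + (583680000 * c6 ^ 6 - 1220474880 * c4 ^ 3 * c6 ^ 4 + 714711600 * c4 ^ 6 * c6 ^ 2 - 77911875 * c4 ^ 9) * t ^ 16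
    + (361881600 * c4 ^ 2 * c6 ^ 5 - 715080960 * c4 ^ 5 * c6 ^ 3 + 353200500 * c4 ^ 8 * c6) * t ^ 17
    + (-622592000 * c4 * c6 ^ 6 + 2026391040 * c4 ^ 4 * c6 ^ 4 - 2182917600 * c4 ^ 7 * c6 ^ 2 + 779118750 * c4 ^ 10) * t ^ 18
    + (-655360000 * c6 ^ 7 + 2005401600 * c4 ^ 3 * c6 ^ 5 - 2044414080 * c4 ^ 6 * c6 ^ 3 + 694372500 * c4 ^ 9 * c6) * t ^ 19
    + (-180224000 * c4 ^ 2 * c6 ^ 6 + 544997376 * c4 ^ 5 * c6 ^ 4 - 549301500 * c4 ^ 8 * c6 ^ 2 + 184528125 * c4 ^ 11) * t ^ 20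

/-- `c6` of the family. -/
def famC6 (c4 c6 t : R) : R :=
  (c6)
    + (30 * c4 ^ 2) * t
    + (435 * c4 * c6) * t ^ 2
    + (2900 * c6 ^ 2 + 1160 * c4 ^ 3) * t ^ 3
    + (27405 * c4 ^ 2 * c6) * t ^ 4
    + (46980 * c4 * c6 ^ 2 + 95526 * c4 ^ 4) * t ^ 5
    + (156600 * c6 ^ 3 + 437175 * c4 ^ 3 * c6) * t ^ 6
    + (3915000 * c4 ^ 2 * c6 ^ 2 - 1879200 * c4 ^ 5) * t ^ 7
    + (14407200 * c4 * c6 ^ 3 - 8554275 * c4 ^ 4 * c6) * t ^ 8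
    + (32016000 * c6 ^ 4 - 42021000 * c4 ^ 3 * c6 ^ 2 + 24312150 * c4 ^ 6) * t ^ 9
    + (-216588240 * c4 ^ 2 * c6 ^ 3 + 246633255 * c4 ^ 5 * c6) * t ^ 10
    + (-1459929600 * c4 * c6 ^ 4 + 1352475900 * c4 ^ 4 * c6 ^ 2 + 162081000 * c4 ^ 7) * t ^ 11
    + (-2433216000 * c6 ^ 5 - 1612005600 * c4 ^ 3 * c6 ^ 3 + 4131714825 * c4 ^ 6 * c6) * t ^ 12
    + (-12044419200 * c4 ^ 2 * c6 ^ 4 + 5235216300 * c4 ^ 5 * c6 ^ 2 + 6928962750 * c4 ^ 8) * t ^ 13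
    + (-43045111800 * c4 ^ 4 * c6 ^ 3 + 43190534475 * c4 ^ 7 * c6) * t ^ 14
    + (-79420170240 * c4 ^ 3 * c6 ^ 4 + 79575287760 * c4 ^ 6 * c6 ^ 2) * t ^ 15
    + (-297825638400 * c4 ^ 2 * c6 ^ 5 + 474659611200 * c4 ^ 5 * c6 ^ 3 - 176688550125 * c4 ^ 8 * c6) * t ^ 16
    + (-700766208000 * c4 * c6 ^ 6 + 935084908800 * c4 ^ 4 * c6 ^ 4 + 77604382800 * c4 ^ 7 * c6 ^ 2 - 311803323750 * c4 ^ 10) * t ^ 17
    + (-778629120000 * c6 ^ 7 - 303665356800 * c4 ^ 3 * c6 ^ 5 + 2776512362400 * c4 ^ 6 * c6 ^ 3 - 1694131392375 * c4 ^ 9 * c6) * t ^ 18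
    + (-4290656256000 * c4 ^ 2 * c6 ^ 6 + 8100765158400 * c4 ^ 5 * c6 ^ 4 - 3481840250100 * c4 ^ 8 * c6 ^ 2 - 328214025000 * c4 ^ 11) * t ^ 19
    + (-3442360320000 * c4 * c6 ^ 7 + 3892110842880 * c4 ^ 4 * c6 ^ 5 + 2424887357760 * c4 ^ 7 * c6 ^ 3 - 2874607835625 * c4 ^ 10 * c6) * t ^ 20
    + (-3278438400000 * c6 ^ 8 + 5125838438400 * c4 ^ 3 * c6 ^ 6 - 2709129888000 * c4 ^ 6 * c6 ^ 4 + 3077188825500 * c4 ^ 9 * c6 ^ 2 - 2215444668750 * c4 ^ 12) * t ^ 21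
    + (-4573421568000 * c4 ^ 2 * c6 ^ 7 + 7701051801600 * c4 ^ 5 * c6 ^ 5 - 1724509423800 * c4 ^ 8 * c6 ^ 3 - 1403114956875 * c4 ^ 11 * c6) * t ^ 22
    + (6157762560000 * c4 * c6 ^ 8 - 30337884979200 * c4 ^ 4 * c6 ^ 6 + 49888700928000 * c4 ^ 7 * c6 ^ 4 - 33414470973000 * c4 ^ 10 * c6 ^ 2 + 7705894500000 * c4 ^ 13) * t ^ 23
    + (5131468800000 * c6 ^ 9 - 22779445248000 * c4 ^ 3 * c6 ^ 7 + 35246094796800 * c4 ^ 6 * c6 ^ 5 - 22687218914400 * c4 ^ 9 * c6 ^ 3 + 5089101159375 * c4 ^ 12 * c6) * t ^ 24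
    + (-18216714240000 * c4 ^ 2 * c6 ^ 8 + 71274600677376 * c4 ^ 5 * c6 ^ 6 - 105528606261120 * c4 ^ 8 * c6 ^ 4 + 70097953635000 * c4 ^ 11 * c6 ^ 2 - 17627233668750 * c4 ^ 14) * t ^ 25
    + (-41051750400000 * c4 * c6 ^ 9 + 163803539865600 * c4 ^ 4 * c6 ^ 7 - 245438120632320 * c4 ^ 7 * c6 ^ 5 + 163672057566000 * c4 ^ 10 * c6 ^ 3 - 40985726371875 * c4 ^ 13 * c6) * t ^ 26
    + (-30408704000000 * c6 ^ 10 + 111934439424000 * c4 ^ 3 * c6 ^ 8 - 143803576074240 * c4 ^ 6 * c6 ^ 6 + 63806176396800 * c4 ^ 9 * c6 ^ 4 + 8104032382500 * c4 ^ 12 * c6 ^ 2 - 9632368125000 * c4 ^ 15) * t ^ 27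
    + (-21438136320000 * c4 ^ 2 * c6 ^ 9 + 85731449241600 * c4 ^ 5 * c6 ^ 7 - 128580522647040 * c4 ^ 8 * c6 ^ 5 + 85719228804000 * c4 ^ 11 * c6 ^ 3 - 21432019078125 * c4 ^ 14 * c6) * t ^ 28
    + (5033164800000 * c4 * c6 ^ 10 - 31344427008000 * c4 ^ 4 * c6 ^ 8 + 75042714746880 * c4 ^ 7 * c6 ^ 6 - 87394892457600 * c4 ^ 10 * c6 ^ 4 + 49873523512500 * c4 ^ 13 * c6 ^ 2 - 11210083593750 * c4 ^ 16) * t ^ 29
    + (3355443200000 * c6 ^ 11 - 17532190720000 * c4 ^ 3 * c6 ^ 9 + 36574189977600 * c4 ^ 6 * c6 ^ 7 - 38083944628224 * c4 ^ 9 * c6 ^ 5 + 19796866155000 * c4 ^ 12 * c6 ^ 3 - 4110363984375 * c4 ^ 15 * c6) * t ^ 30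

/-- the universal curve `y² = x³ + 16875 kH x + 843750 kT` (the curve with `c₄ = -kH`, `c₆ = -kT`
in short form, rescaled by `u = 5` so that its 5-torsion points have integral coordinates). -/
def UE (a b : R) : WeierstrassCurve R := ⟨0, 0, 0, 16875 * kH a b, 843750 * kT a b⟩

end Fermat.Agent.X5
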